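import Mathlib

/-!
# S13 / DPLink (owner helper9): (L3) a sequence satisfying the odd and even duplication rules of a
normalised elliptic divisibility sequence up to the index `N` agrees with `normEDS` up to `N`
-/

set_option autoImplicit false

namespace Fermat.Agent.S13.DPLink

/-- (L3) Uniqueness.  Let `W : ℕ → K` satisfy `W 0 = 0`, `W 1 = 1`, `W 2 = b ≠ 0`, `W 3 = c`,
`W 4 = d * b`, the odd rule `W (2m+1) = W (m+2) W m ³ - W (m-1) W (m+1) ³` for `2 ≤ m`,
`2m+1 ≤ N`, and the even rule `W (2m) * b = W m * (W (m+2) W (m-1)² - W (m-2) W (m+1)²)` for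
`3 ≤ m`, `2m ≤ N`.  Then `W k = normEDS b c d k` for all `k ≤ N`. -/
theorem eq_normEDS_of_rules {K : Type*} [CommRing K] [IsDomain K] (b c d : K) (hb : b ≠ 0) (N : ℕ)
    (W : ℕ → K) (h0 : W 0 = 0) (h1 : W 1 = 1) (h2 : W 2 = b) (h3 : W 3 = c) (h4 : W 4 = d * b)
    (hodd : ∀ m : ℕ, 2 ≤ m → 2 * m + 1 ≤ N →
      W (2 * m + 1) = W (m + 2) * W m ^ 3 - W (m - 1) * W (m + 1) ^ 3)
    (heven : ∀ m : ℕ, 3 ≤ m → 2 * m ≤ N →
      W (2 * m) * b = W m * (W (m + 2) * W (m - 1) ^ 2 - W (m - 2) * W (m + 1) ^ 2)) :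
    ∀ k : ℕ, k ≤ N → W k = normEDS b c d (k : ℤ) := by
  intro k
  induction k using Nat.strong_induction_on with
  | _ k ih =>
    intro hk
    rcases Nat.even_or_odd' k with ⟨m, rfl | rfl⟩
    · -- `k = 2 m`
      by_cases hm : 3 ≤ m
      · have e := heven m hm hk
        have IH : ∀ j : ℕ, j < 2 * m → W j = normEDS b c d (j : ℤ) :=
          fun j hj => ih j hj (by omega)
        rw [IH m (by omega), IH (m + 2) (by omega), IH (m - 1) (by omega), IH (m - 2) (by omega),
          IH (m + 1) (by omega)] at e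
        have e' := normEDS_even b c d (m : ℤ)
        apply mul_right_cancel₀ hb
        rw [e]
        have c1 : ((m - 1 : ℕ) : ℤ) = (m : ℤ) - 1 := by omega
        have c2 : ((m - 2 : ℕ) : ℤ) = (m : ℤ) - 2 := by omega
        have c3 : ((m + 2 : ℕ) : ℤ) = (m : ℤ) + 2 := by omega
        have c4 : ((m + 1 : ℕ) : ℤ) = (m : ℤ) + 1 := by omega
        have c5 : ((2 * m : ℕ) : ℤ) = 2 * (m : ℤ) := by omega
        rw [c1, c2, c3, c4, c5, e']
        ring
      · have hm' : m = 0 ∨ m = 1 ∨ m = 2 := by omega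
        rcases hm' with rfl | rfl | rfl
        · simpa using h0
        · simpa using h2
        · simpa using h4
    · -- `k = 2 m + 1`
      by_cases hm : 2 ≤ m
      · have e := hodd m hm hk
        have IH : ∀ j : ℕ, j < 2 * m + 1 → W j = normEDS b c d (j : ℤ) :=
          fun j hj => ih j hj (by omega)
        rw [IH (m + 2) (by omega), IH m (by omega), IH (m - 1) (by omega),
          IH (m + 1) (by omega)] at e
        have e' := normEDS_odd b c d (m : ℤ)
        have c1 : ((m - 1 : ℕ) : ℤ) = (m : ℤ) - 1 := by omega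
        have c3 : ((m + 2 : ℕ) : ℤ) = (m : ℤ) + 2 := by omega
        have c4 : ((m + 1 : ℕ) : ℤ) = (m : ℤ) + 1 := by omega
        have c5 : ((2 * m + 1 : ℕ) : ℤ) = 2 * (m : ℤ) + 1 := by omega
        rw [e, c1, c3, c4, c5, e']
      · have hm' : m = 0 ∨ m = 1 := by omega
        rcases hm' with rfl | rfl
        · simpa using h1
        · simpa using h3

end Fermat.Agent.S13.DPLink
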