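import Fermat.Agent.S13.DPLink.Steps
import Fermat.Agent.S13.DPLink.Unique

/-!
# S13 / DPLink (owner helper9): drop-in proofs of the field-level leaves of helper2's DP skeleton

Statement-identical copies (prefix `dp_`) of
`DP.lad_ne_zero`, `DP.lad_succ_mul_pred` (Nonzero), `DP.lad_three` (BaseThree),
`DP.lad_four` (BaseFour), `DP.lad_D` (DAll), `DP.lad_odd_rule` (RuleOdd),
`DP.lad_even_rule` (RuleEven), `DP.lad_eq_normEDS` (EDS; here as `dp_lad_eq_normEDS'`, proved from
the `dp_` versions, hence sorry-free).  This file imports only `DP/Defs` (through `Steps`).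
-/

set_option autoImplicit false

namespace Fermat.Agent.S13.DPLink

open Fermat.Agent.S13.DP

variable {K : Type*} [Field K]

/-- Statement of `DP.lad_ne_zero`. -/
theorem dp_lad_ne_zero {a b : K} {x : ℕ → K} {Y : K} {n : ℕ} (h : Hyp a b x Y n) :
    ∀ k : ℕ, 1 ≤ k → k + 1 ≤ n → lad x Y k ≠ 0 := by
  intro k
  induction k using Nat.strong_induction_on with
  | _ k ih =>
    intro hk hkn
    match k, hk, hkn, ih with
    | 1, _, _, _ =>
      rw [lad_one]
      exact one_ne_zero
    | 2, _, _, _ =>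
      rw [lad_two]
      exact mul_ne_zero h.two_ne h.Y_ne
    | (k + 3), _, hkn, ih =>
      rw [lad_add_three]
      have h1 : lad x Y (k + 2) ≠ 0 := ih (k + 2) (by omega) (by omega) (by omega)
      have h2 : lad x Y (k + 1) ≠ 0 := ih (k + 1) (by omega) (by omega) (by omega)
      have h3 : x (k + 2) ≠ x 1 := h.ne (k + 2) (by omega) (by omega)
      exact div_ne_zero (mul_ne_zero (sub_ne_zero.mpr (Ne.symm h3)) (pow_ne_zero 2 h1)) h2

/-- Statement of `DP.lad_succ_mul_pred`. -/
theorem dp_lad_succ_mul_pred {a b : K} {x : ℕ → K} {Y : K} {n : ℕ} (h : Hyp a b x Y n) :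
    ∀ k : ℕ, 1 ≤ k → k + 1 ≤ n →
      lad x Y (k + 1) * lad x Y (k - 1) = (x 1 - x k) * lad x Y k ^ 2 := by
  intro k hk hkn
  match k, hk, hkn with
  | 1, _, _ => simp
  | (k + 2), _, hkn =>
    have h2 : lad x Y (k + 1) ≠ 0 := dp_lad_ne_zero h (k + 1) (by omega) (by omega)
    have e1 : k + 2 + 1 = k + 3 := by omega
    have e2 : k + 2 - 1 = k + 1 := by omega
    rw [e1, e2, lad_add_three, div_mul_cancel₀ _ h2]

/-- Statement of `DP.lad_three`. -/
theorem dp_lad_three {a b : K} {x : ℕ → K} {Y : K} {n : ℕ} (h : Hyp a b x Y n) :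
    lad x Y 3 = psi3 a b (x 1) := by
  have e : lad x Y 3 = (x 1 - x 2) * lad x Y 2 ^ 2 / lad x Y 1 := lad_add_three x Y 0
  rw [e, lad_two, lad_one, div_one]
  have hd := h.dbl (x 1)
  rw [biq_diag] at hd
  linear_combination hd

/-- Statement of `DP.lad_four`. -/
theorem dp_lad_four {a b : K} {x : ℕ → K} {Y : K} {n : ℕ} (h : Hyp a b x Y n) (hn : 4 ≤ n) :
    lad x Y 4 = psi4 a b (x 1) * (2 * Y) := by
  have e : lad x Y 4 = (x 1 - x 3) * lad x Y 3 ^ 2 / lad x Y 2 := lad_add_three x Y 1
  have h3 := dp_lad_three h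
  have hY := h.Y_ne
  have h2 := h.two_ne
  have hadd := h.add 2 le_rfl (by omega)
  have hadd0 := hadd 0
  have hadd1 := hadd 1
  have e21 : 2 - 1 = 1 := rfl
  have e23 : 2 + 1 = 3 := rfl
  rw [e21, e23, biq_expand] at hadd0 hadd1
  have hsum : (x 1 + x 3) * (x 2 - x 1) ^ 2 =
      2 * ((x 2 + x 1) * (x 2 * x 1 + b) + 2 * a * x 2 * x 1) := by
    linear_combination hadd1 - hadd0
  have hp : psi3 a b (x 1) = 4 * Y ^ 2 * (x 1 - x 2) := by
    have hd := h.dbl (x 1)
    rw [biq_diag] at hd
    linear_combination -hd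
  have heq := h.eqn
  rw [e, h3, lad_two, div_eq_iff (mul_ne_zero h2 hY), psi4_eq, hp]
  linear_combination (-16 * Y ^ 4) * hsum +
    (-64 * Y ^ 2 * (x 1 ^ 3 + a * x 1 ^ 2 + b * x 1)) * heq

/-- Statement of `DP.lad_D`. -/
theorem dp_lad_D {a b : K} {x : ℕ → K} {Y : K} {n : ℕ} (h : Hyp a b x Y n) :
    ∀ k j : ℕ, 1 ≤ k → k < j → j + k ≤ n →
      lad x Y (j + k) * lad x Y (j - k) = (x k - x j) * lad x Y j ^ 2 * lad x Y k ^ 2 := by
  intro k
  induction k using Nat.strong_induction_on with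
  | _ k ih =>
    intro j hk hkj hjk
    match k, hk, hkj, hjk, ih with
    | 1, _, hkj, hjk, _ =>
      have h1 := dp_lad_succ_mul_pred h j (by omega) (by omega)
      rw [lad_one, h1]
      ring
    | 2, _, hkj, hjk, _ =>
      have hdbl : biq a b (x j) (x 1) (x 1) = (lad x Y 2) ^ 2 * (x 2 - x j) := by
        rw [h.dbl, lad_two]
        ring
      have hadd : biq a b (x 1) (x j) (x 1) =
          (x 1 - x (j + 1)) * (x 1 - x (j - 1)) * (x j - x 1) ^ 2 :=
        h.add j (by omega) (by omega) (x 1)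
      have hp : lad x Y (j + 2) * lad x Y j = (x 1 - x (j + 1)) * lad x Y (j + 1) ^ 2 := by
        have h1 := dp_lad_succ_mul_pred h (j + 1) (by omega) (by omega)
        have e1 : j + 1 + 1 = j + 2 := by omega
        have e2 : j + 1 - 1 = j := by omega
        rw [e1, e2] at h1
        exact h1
      have hm : lad x Y j * lad x Y (j - 2) = (x 1 - x (j - 1)) * lad x Y (j - 1) ^ 2 := by
        have h1 := dp_lad_succ_mul_pred h (j - 1) (by omega) (by omega)
        have e1 : j - 1 + 1 = j := by omega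
        have e2 : j - 1 - 1 = j - 2 := by omega
        rw [e1, e2] at h1
        exact h1
      have h0 := dp_lad_succ_mul_pred h j (by omega) (by omega)
      exact dp_step_two hdbl hadd hp hm h0 (dp_lad_ne_zero h j (by omega) (by omega))
        (dp_lad_ne_zero h (j + 1) (by omega) (by omega))
        (dp_lad_ne_zero h (j - 1) (by omega) (by omega))
    | (k + 3), _, hkj, hjk, ih =>
      -- `k' = k + 2`; we prove `D(j, k' + 1)`
      have haddk : biq a b (x j) (x (k + 2)) (x 1) =
          (x j - x (k + 3)) * (x j - x (k + 1)) * (x (k + 2) - x 1) ^ 2 :=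
        h.add (k + 2) (by omega) (by omega) (x j)
      have haddj : biq a b (x (k + 2)) (x j) (x 1) =
          (x (k + 2) - x (j + 1)) * (x (k + 2) - x (j - 1)) * (x j - x 1) ^ 2 :=
        h.add j (by omega) (by omega) (x (k + 2))
      have hAB : lad x Y (j + (k + 3)) * lad x Y (j - (k + 1)) =
          (x (k + 2) - x (j + 1)) * lad x Y (j + 1) ^ 2 * lad x Y (k + 2) ^ 2 := by
        have h1 := ih (k + 2) (by omega) (j + 1) (by omega) (by omega) (by omega)
        have e1 : j + 1 + (k + 2) = j + (k + 3) := by omega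
        have e2 : j + 1 - (k + 2) = j - (k + 1) := by omega
        rw [e1, e2] at h1
        exact h1
      have hCE : lad x Y (j + (k + 1)) * lad x Y (j - (k + 3)) =
          (x (k + 2) - x (j - 1)) * lad x Y (j - 1) ^ 2 * lad x Y (k + 2) ^ 2 := by
        have h1 := ih (k + 2) (by omega) (j - 1) (by omega) (by omega) (by omega)
        have e1 : j - 1 + (k + 2) = j + (k + 1) := by omega
        have e2 : j - 1 - (k + 2) = j - (k + 3) := by omega
        rw [e1, e2] at h1
        exact h1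
      have hCB : lad x Y (j + (k + 1)) * lad x Y (j - (k + 1)) =
          (x (k + 1) - x j) * lad x Y j ^ 2 * lad x Y (k + 1) ^ 2 :=
        ih (k + 1) (by omega) j (by omega) (by omega) (by omega)
      have hk' : lad x Y (k + 3) * lad x Y (k + 1) = (x 1 - x (k + 2)) * lad x Y (k + 2) ^ 2 := by
        have h1 := dp_lad_succ_mul_pred h (k + 2) (by omega) (by omega)
        have e1 : k + 2 + 1 = k + 3 := by omega
        have e2 : k + 2 - 1 = k + 1 := by omega
        rw [e1, e2] at h1
        exact h1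
      have hj' := dp_lad_succ_mul_pred h j (by omega) (by omega)
      exact dp_step_gen haddk haddj hAB hCE hCB hk' hj'
        (dp_lad_ne_zero h j (by omega) (by omega))
        (dp_lad_ne_zero h (k + 2) (by omega) (by omega))
        (dp_lad_ne_zero h (k + 1) (by omega) (by omega))
        (dp_lad_ne_zero h (j + 1) (by omega) (by omega))
        (dp_lad_ne_zero h (j - 1) (by omega) (by omega))
        (dp_lad_ne_zero h (j - (k + 1)) (by omega) (by omega))
        (dp_lad_ne_zero h (j + (k + 1)) (by omega) (by omega))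

/-- Statement of `DP.lad_odd_rule`. -/
theorem dp_lad_odd_rule {a b : K} {x : ℕ → K} {Y : K} {n : ℕ} (h : Hyp a b x Y n) :
    ∀ m : ℕ, 2 ≤ m → 2 * m + 1 ≤ n →
      lad x Y (2 * m + 1)
        = lad x Y (m + 2) * lad x Y m ^ 3 - lad x Y (m - 1) * lad x Y (m + 1) ^ 3 := by
  intro m hm hmn
  have hD := dp_lad_D h m (m + 1) (by omega) (by omega) (by omega)
  have e1 : m + 1 + m = 2 * m + 1 := by omega
  have e2 : m + 1 - m = 1 := by omega
  rw [e1, e2, lad_one, mul_one] at hD
  have h1 := dp_lad_succ_mul_pred h (m + 1) (by omega) (by omega)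
  have e3 : m + 1 + 1 = m + 2 := by omega
  have e4 : m + 1 - 1 = m := by omega
  rw [e3, e4] at h1
  have h2 := dp_lad_succ_mul_pred h m (by omega) (by omega)
  rw [hD]
  linear_combination (-(lad x Y m ^ 2)) * h1 + (lad x Y (m + 1) ^ 2) * h2

/-- Statement of `DP.lad_even_rule`. -/
theorem dp_lad_even_rule {a b : K} {x : ℕ → K} {Y : K} {n : ℕ} (h : Hyp a b x Y n) :
    ∀ m : ℕ, 3 ≤ m → 2 * m ≤ n →
      lad x Y (2 * m) * (2 * Y)
        = lad x Y (m - 1) ^ 2 * lad x Y m * lad x Y (m + 2)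
          - lad x Y (m - 2) * lad x Y m * lad x Y (m + 1) ^ 2 := by
  intro m hm hmn
  have hD := dp_lad_D h (m - 1) (m + 1) (by omega) (by omega) (by omega)
  have e1 : m + 1 + (m - 1) = 2 * m := by omega
  have e2 : m + 1 - (m - 1) = 2 := by omega
  rw [e1, e2, lad_two] at hD
  have h1 := dp_lad_succ_mul_pred h (m + 1) (by omega) (by omega)
  have e3 : m + 1 + 1 = m + 2 := by omega
  have e4 : m + 1 - 1 = m := by omega
  rw [e3, e4] at h1
  have h2 := dp_lad_succ_mul_pred h (m - 1) (by omega) (by omega)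
  have e5 : m - 1 + 1 = m := by omega
  have e6 : m - 1 - 1 = m - 2 := by omega
  rw [e5, e6] at h2
  rw [hD]
  linear_combination (-(lad x Y (m - 1) ^ 2)) * h1 + (lad x Y (m + 1) ^ 2) * h2

/-- Statement of `DP.lad_eq_normEDS`, proved from the `dp_` versions above (sorry-free). -/
theorem dp_lad_eq_normEDS' {a b : K} {x : ℕ → K} {Y : K} {n : ℕ} (h : Hyp a b x Y n)
    (hn : 4 ≤ n) :
    ∀ k : ℕ, k ≤ n →
      lad x Y k = normEDS (2 * Y) (psi3 a b (x 1)) (psi4 a b (x 1)) (k : ℤ) := by
  refine eq_normEDS_of_rules (2 * Y) _ _ (mul_ne_zero h.two_ne h.Y_ne) n (lad x Y) (lad_zero x Y)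
    (lad_one x Y) (lad_two x Y) (dp_lad_three h) (dp_lad_four h hn) ?_ ?_
  · intro m hm hmn
    exact dp_lad_odd_rule h m hm hmn
  · intro m hm hmn
    rw [dp_lad_even_rule h m hm hmn]
    ring

end Fermat.Agent.S13.DPLink
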