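import Mathlib
import Fermat.Agent.S13.Iface.DP

/-!
# S13 / DPLink (owner helper9): link between Mathlib's division polynomials of
`legendre α β` (`Y² = X (X - α) (X - β)`) and the normalised EDS `normEDS`

* (L2) explicit values `eval_Ψ₂Sq`, `eval_Ψ₃`, `eval_preΨ₄`.
* (L1) `eval_preΨ'_mul_ite`: for a point `(X, Y)` of the curve and every `n : ℕ`,
  `normEDS (2 Y) Ψ₃(X) preΨ₄(X) n = preΨ'ₙ(X) * (if Even n then 2 Y else 1)`;
  corollaries `eval_preΨ'_of_odd` and `normEDS_of_even`.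
-/

set_option autoImplicit false

namespace Fermat.Agent.S13.DPLink

open Polynomial

section Ring

variable {K : Type*} [CommRing K] (α β X : K)

/-- `Ψ₂Sq(X) = 4 X (X - α) (X - β)`. -/
theorem eval_Ψ₂Sq : ((legendre α β).Ψ₂Sq).eval X = 4 * X * (X - α) * (X - β) := by
  simp only [WeierstrassCurve.Ψ₂Sq, WeierstrassCurve.b₂, WeierstrassCurve.b₄,
    WeierstrassCurve.b₆, legendre, eval_add, eval_mul, eval_C, eval_pow, eval_X]
  ring

/-- `Ψ₃(X) = 3 X⁴ - 4 (α + β) X³ + 6 α β X² - (α β)²`. -/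
theorem eval_Ψ₃ : ((legendre α β).Ψ₃).eval X =
    3 * X ^ 4 - 4 * (α + β) * X ^ 3 + 6 * (α * β) * X ^ 2 - (α * β) ^ 2 := by
  simp only [WeierstrassCurve.Ψ₃, WeierstrassCurve.b₂, WeierstrassCurve.b₄,
    WeierstrassCurve.b₆, WeierstrassCurve.b₈, legendre, eval_add, eval_mul, eval_C, eval_pow,
    eval_X, eval_ofNat]
  ring

/-- `preΨ₄(X) = 2 X⁶ - 4 (α + β) X⁵ + 10 α β X⁴ - 10 (α β)² X² + 4 (α + β) (α β)² X - 2 (α β)³`. -/
theorem eval_preΨ₄ : ((legendre α β).preΨ₄).eval X =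
    2 * X ^ 6 - 4 * (α + β) * X ^ 5 + 10 * (α * β) * X ^ 4 - 10 * (α * β) ^ 2 * X ^ 2 +
      4 * (α + β) * (α * β) ^ 2 * X - 2 * (α * β) ^ 3 := by
  simp only [WeierstrassCurve.preΨ₄, WeierstrassCurve.b₂, WeierstrassCurve.b₄,
    WeierstrassCurve.b₆, WeierstrassCurve.b₈, legendre, eval_add, eval_mul, eval_C, eval_pow,
    eval_X, eval_ofNat]
  ring

/-- Evaluation commutes with the recursion: `preΨ'ₙ(X) = preNormEDS' (Ψ₂Sq(X)²) Ψ₃(X) preΨ₄(X) n`. -/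
theorem eval_preΨ' (n : ℕ) : ((legendre α β).preΨ' n).eval X =
    preNormEDS' (((legendre α β).Ψ₂Sq).eval X ^ 2) (((legendre α β).Ψ₃).eval X)
      (((legendre α β).preΨ₄).eval X) n := by
  have h := map_preNormEDS' (evalRingHom X) ((legendre α β).Ψ₂Sq ^ 2) ((legendre α β).Ψ₃)
    ((legendre α β).preΨ₄) n
  rw [coe_evalRingHom, eval_pow] at h
  rw [WeierstrassCurve.preΨ', h]

end Ring

section Curve

variable {K : Type*} [CommRing K] {α β X Y : K}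

/-- (L1), all `n`: on the curve, `normEDS (2Y) Ψ₃(X) preΨ₄(X) n = preΨ'ₙ(X) * (2Y if n even)`. -/
theorem eval_preΨ'_mul_ite (hY : Y ^ 2 = X * (X - α) * (X - β)) (n : ℕ) :
    normEDS (2 * Y) (((legendre α β).Ψ₃).eval X) (((legendre α β).preΨ₄).eval X) (n : ℤ) =
      ((legendre α β).preΨ' n).eval X * (if Even n then 2 * Y else 1) := by
  have h4 : (2 * Y) ^ 4 = ((legendre α β).Ψ₂Sq).eval X ^ 2 := by
    rw [eval_Ψ₂Sq]
    have : (2 * Y) ^ 4 = (4 * Y ^ 2) ^ 2 := by ring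
    rw [this, hY]
    ring
  rw [normEDS_ofNat, eval_preΨ', h4]

/-- (L1), odd `n`: `preΨ'ₙ(X) = normEDS (2Y) Ψ₃(X) preΨ₄(X) n`. -/
theorem eval_preΨ'_of_odd (hY : Y ^ 2 = X * (X - α) * (X - β)) {n : ℕ} (hn : Odd n) :
    ((legendre α β).preΨ' n).eval X =
      normEDS (2 * Y) (((legendre α β).Ψ₃).eval X) (((legendre α β).preΨ₄).eval X) (n : ℤ) := by
  rw [eval_preΨ'_mul_ite hY, if_neg (Nat.not_even_iff_odd.mpr hn), mul_one]

/-- (L1), even `n`: `normEDS (2Y) Ψ₃(X) preΨ₄(X) n = preΨ'ₙ(X) * (2Y)`. -/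
theorem normEDS_of_even (hY : Y ^ 2 = X * (X - α) * (X - β)) {n : ℕ} (hn : Even n) :
    normEDS (2 * Y) (((legendre α β).Ψ₃).eval X) (((legendre α β).preΨ₄).eval X) (n : ℤ) =
      ((legendre α β).preΨ' n).eval X * (2 * Y) := by
  rw [eval_preΨ'_mul_ite hY, if_pos hn]

end Curve

end Fermat.Agent.S13.DPLink
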