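import Fermat.Agent.S13.DPLink.Eval
import Fermat.Agent.S13.DPLink.Unique
import Fermat.Agent.S13.DP.RuleOdd
import Fermat.Agent.S13.DP.RuleEven
import Fermat.Agent.S13.DP.BaseFour

/-!
# S13 / DPLink (owner helper9): drop-in proofs for two leaves of helper2's DP skeleton

* `dp_eval_preΨ'`   : the statement of `DP.eval_preΨ'` (file `S13/DP/Link.lean`);
* `dp_lad_eq_normEDS` : the statement of `DP.lad_eq_normEDS` (file `S13/DP/EDS.lean`), proved from
  `DP.lad_three`, `DP.lad_four`, `DP.lad_odd_rule`, `DP.lad_even_rule`.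

This file imports only `DP/Defs`, `DP/RuleOdd`, `DP/RuleEven`, `DP/BaseFour` (as `DP/EDS.lean`
does), so `DP/Link.lean` and `DP/EDS.lean` can import it and close their goals by `exact`.
-/

set_option autoImplicit false

namespace Fermat.Agent.S13.DPLink

open Polynomial Fermat.Agent.S13.DP

variable {K : Type*} [Field K]

/-- Statement of `DP.eval_preΨ'`. -/
theorem dp_eval_preΨ' {α β X Y : K} (hY : Y ^ 2 = X * (X - α) * (X - β)) {n : ℕ} (hn : Odd n) :
    ((curve α β).preΨ' n).eval X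
      = normEDS (2 * Y) (psi3 (-(α + β)) (α * β) X) (psi4 (-(α + β)) (α * β) X) (n : ℤ) := by
  have h := eval_preΨ'_of_odd hY hn
  have e3 : ((legendre α β).Ψ₃).eval X = psi3 (-(α + β)) (α * β) X := by
    rw [eval_Ψ₃]
    unfold psi3
    ring
  have e4 : ((legendre α β).preΨ₄).eval X = psi4 (-(α + β)) (α * β) X := by
    rw [eval_preΨ₄]
    unfold psi4
    ring
  rw [e3, e4] at h
  exact h

/-- Statement of `DP.lad_eq_normEDS`. -/
theorem dp_lad_eq_normEDS {a b : K} {x : ℕ → K} {Y : K} {n : ℕ} (h : Hyp a b x Y n)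
    (hn : 4 ≤ n) :
    ∀ k : ℕ, k ≤ n →
      lad x Y k = normEDS (2 * Y) (psi3 a b (x 1)) (psi4 a b (x 1)) (k : ℤ) := by
  refine eq_normEDS_of_rules (2 * Y) _ _ (mul_ne_zero h.two_ne h.Y_ne) n (lad x Y) (lad_zero x Y)
    (lad_one x Y) (lad_two x Y) (lad_three h) (lad_four h hn) ?_ ?_
  · intro m hm hmn
    exact lad_odd_rule h m hm hmn
  · intro m hm hmn
    rw [lad_even_rule h m hm hmn]
    ring

end Fermat.Agent.S13.DPLink
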