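import Fermat.Agent.S13.DP.Defs

/-!
# S13 / DPLink (owner helper9): drop-in proofs of the geometric leaves of helper2's DP skeleton

Statement-identical copies (prefix `dp_`) of `DP.geo_dbl` (GeoDbl), `DP.geo_add` (GeoAdd),
`DP.geo_final` (GeoFinal).  This file imports only `DP/Defs`.
-/

set_option autoImplicit false

namespace Fermat.Agent.S13.DPLink

open Fermat.Agent.S05 Fermat.Agent.S13.DP

variable {K : Type*} [Field K]

/-- Statement of `DP.geo_dbl`. -/
theorem dp_geo_dbl (h2 : (2 : K) ≠ 0) {α β : K} {G : Type*} [AddCommGroup G] (M : Model K α β G)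
    {P : G} {X Y : K} (hP : M.coord P = some (X, Y)) (h2P : 2 • P ≠ 0) :
    Y ≠ 0 ∧ ∀ T : K, biq (-(α + β)) (α * β) T X X = 4 * Y ^ 2 * (xs M P 2 - T) := by
  have hY : Y ≠ 0 := by
    rintro rfl
    apply h2P
    rw [two_nsmul]
    exact M.add_self_eq_zero_of_Y_eq_zero hP
  refine ⟨hY, fun T => ?_⟩
  obtain ⟨Y₃, h₃⟩ := M.exists_coord_two h2 hP hY
  have hx2 : xs M P 2 = (X ^ 2 - α * β) ^ 2 / (4 * Y ^ 2) := by
    apply xs_of_coord M (Y := Y₃)
    rw [two_nsmul]
    exact h₃
  have h4 : (4 : K) * Y ^ 2 ≠ 0 := by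
    have e4 : (4 : K) = 2 * 2 := by norm_num
    rw [e4]
    exact mul_ne_zero (mul_ne_zero h2 h2) (pow_ne_zero 2 hY)
  have heq := M.equation hP
  have e : 4 * Y ^ 2 * ((X ^ 2 - α * β) ^ 2 / (4 * Y ^ 2)) = (X ^ 2 - α * β) ^ 2 := by
    rw [mul_comm]
    exact div_mul_cancel₀ _ h4
  rw [hx2, biq_same]
  linear_combination (4 * T) * heq - e

/-- Statement of `DP.geo_add`. -/
theorem dp_geo_add {α β : K} {G : Type*} [AddCommGroup G] (M : Model K α β G) {P : G} {n : ℕ}
    (h : ∀ k : ℕ, 1 ≤ k → k < n → k • P ≠ 0) :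
    ∀ k : ℕ, 2 ≤ k → k + 2 ≤ n →
      xs M P k ≠ xs M P 1 ∧
      ∀ T : K, biq (-(α + β)) (α * β) T (xs M P k) (xs M P 1)
        = (T - xs M P (k + 1)) * (T - xs M P (k - 1)) * (xs M P k - xs M P 1) ^ 2 := by
  intro k hk hkn
  obtain ⟨Yk, hck⟩ := exists_coord_nsmul M (h k (by omega) (by omega))
  obtain ⟨Y1, hc1⟩ := exists_coord_nsmul M (h 1 le_rfl (by omega))
  have hne : xs M P k ≠ xs M P 1 := by
    intro hx
    rw [hx] at hck
    rcases M.eq_or_eq_neg_of_X_eq hc1 hck with h' | h'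
    · apply h (k - 1) (by omega) (by omega)
      have e : k • P = (k - 1) • P + 1 • P := by
        rw [← add_nsmul]
        congr 1
        omega
      rw [e] at h'
      exact add_eq_right.mp h'
    · apply h (k + 1) (by omega) (by omega)
      rw [add_nsmul, h']
      exact neg_add_cancel _
  refine ⟨hne, fun T => ?_⟩
  obtain ⟨Xp, Yp, Xm, Ym, hp, hm, hsum, hprod⟩ := M.exists_coord_add_sub hck hc1 hne
  have hxp : xs M P (k + 1) = Xp := by
    apply xs_of_coord M (Y := Yp)
    rw [add_nsmul]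
    exact hp
  have hxm : xs M P (k - 1) = Xm := by
    apply xs_of_coord M (Y := Ym)
    have e : (k - 1) • P = k • P - 1 • P := by
      rw [eq_sub_iff_add_eq, ← add_nsmul]
      congr 1
      omega
    rw [e]
    exact hm
  have hD : (xs M P k - xs M P 1) ^ 2 ≠ 0 := pow_ne_zero 2 (sub_ne_zero.mpr hne)
  rw [eq_div_iff hD] at hsum hprod
  rw [hxp, hxm, biq_expand]
  linear_combination T * hsum - hprod

/-- Statement of `DP.geo_final`. -/
theorem dp_geo_final {α β : K} {G : Type*} [AddCommGroup G] (M : Model K α β G) {P : G} {n : ℕ}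
    (hn : 3 ≤ n) (h : ∀ k : ℕ, 1 ≤ k → k < n → k • P ≠ 0) :
    n • P = 0 ↔ xs M P (n - 1) = xs M P 1 := by
  obtain ⟨Ym, hcm⟩ := exists_coord_nsmul M (h (n - 1) (by omega) (by omega))
  obtain ⟨Y1, hc1⟩ := exists_coord_nsmul M (h 1 le_rfl (by omega))
  have hsplit : n • P = (n - 1) • P + 1 • P := by
    rw [← add_nsmul]
    congr 1
    omega
  constructor
  · intro h0
    have hneg : (n - 1) • P = -(1 • P) := by
      rw [hsplit] at h0
      exact eq_neg_of_add_eq_zero_left h0
    have hc := M.coord_neg hc1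
    rw [← hneg] at hc
    exact xs_of_coord M hc
  · intro hx
    rw [hx] at hcm
    rcases M.eq_or_eq_neg_of_X_eq hc1 hcm with h' | h'
    · exfalso
      apply h (n - 2) (by omega) (by omega)
      have e : (n - 1) • P = (n - 2) • P + 1 • P := by
        rw [← add_nsmul]
        congr 1
        omega
      rw [e] at h'
      exact add_eq_right.mp h'
    · rw [hsplit, h']
      exact neg_add_cancel _

end Fermat.Agent.S13.DPLink
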