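import Fermat.Agent.S13.DP.Defs

/-!
# S13 / DPLink (owner helper9): drop-in proofs of the pure-algebra steps of helper2's DP skeleton

* `dp_step_two` : the statement of `DP.step_two` (file `S13/DP/StepTwo.lean`);
* `dp_step_gen` : the statement of `DP.step_gen` (file `S13/DP/StepGen.lean`).
This file imports only `DP/Defs`.
-/

set_option autoImplicit false

namespace Fermat.Agent.S13.DPLink

open Fermat.Agent.S13.DP

variable {K : Type*} [Field K]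

/-- Statement of `DP.step_two`. -/
theorem dp_step_two {a b x1 x2 xj xjp xjm W2 Wj Wjp Wjm Wjpp Wjmm : K}
    (hdbl : biq a b xj x1 x1 = W2 ^ 2 * (x2 - xj))
    (hadd : biq a b x1 xj x1 = (x1 - xjp) * (x1 - xjm) * (xj - x1) ^ 2)
    (hp : Wjpp * Wj = (x1 - xjp) * Wjp ^ 2)
    (hm : Wj * Wjmm = (x1 - xjm) * Wjm ^ 2)
    (h0 : Wjp * Wjm = (x1 - xj) * Wj ^ 2)
    (hWj : Wj ≠ 0) (hWjp : Wjp ≠ 0) (hWjm : Wjm ≠ 0) :
    Wjpp * Wjmm = (x2 - xj) * Wj ^ 2 * W2 ^ 2 := by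
  have hsym : biq a b xj x1 x1 = biq a b x1 xj x1 := biq_swap12 a b xj x1 x1
  have key : W2 ^ 2 * (x2 - xj) = (x1 - xjp) * (x1 - xjm) * (xj - x1) ^ 2 := by
    rw [← hdbl, hsym, hadd]
  have hWj2 : Wj ^ 2 ≠ 0 := pow_ne_zero 2 hWj
  apply mul_right_cancel₀ hWj2
  calc Wjpp * Wjmm * Wj ^ 2 = (Wjpp * Wj) * (Wj * Wjmm) := by ring
    _ = (x1 - xjp) * (x1 - xjm) * (Wjp * Wjm) ^ 2 := by rw [hp, hm]; ring
    _ = (x1 - xjp) * (x1 - xjm) * (xj - x1) ^ 2 * Wj ^ 2 * Wj ^ 2 := by rw [h0]; ring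
    _ = (x2 - xj) * Wj ^ 2 * W2 ^ 2 * Wj ^ 2 := by rw [← key]; ring

/-- Statement of `DP.step_gen`. -/
theorem dp_step_gen {a b x1 xj xk xkp xkm xjp xjm Wj Wk Wkp Wkm Wjp Wjm A B C E : K}
    (haddk : biq a b xj xk x1 = (xj - xkp) * (xj - xkm) * (xk - x1) ^ 2)
    (haddj : biq a b xk xj x1 = (xk - xjp) * (xk - xjm) * (xj - x1) ^ 2)
    (hAB : A * B = (xk - xjp) * Wjp ^ 2 * Wk ^ 2)
    (hCE : C * E = (xk - xjm) * Wjm ^ 2 * Wk ^ 2)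
    (hCB : C * B = (xkm - xj) * Wj ^ 2 * Wkm ^ 2)
    (hk : Wkp * Wkm = (x1 - xk) * Wk ^ 2)
    (hj : Wjp * Wjm = (x1 - xj) * Wj ^ 2)
    (hWj : Wj ≠ 0) (hWk : Wk ≠ 0) (hWkm : Wkm ≠ 0) (hWjp : Wjp ≠ 0) (hWjm : Wjm ≠ 0)
    (hB : B ≠ 0) (hC : C ≠ 0) :
    A * E = (xkp - xj) * Wj ^ 2 * Wkp ^ 2 := by
  have hsym : biq a b xj xk x1 = biq a b xk xj x1 := biq_swap12 a b xj xk x1
  have key : (xj - xkp) * (xj - xkm) * (xk - x1) ^ 2 =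
      (xk - xjp) * (xk - xjm) * (xj - x1) ^ 2 := by
    rw [← haddk, hsym, haddj]
  have hCB0 : C * B ≠ 0 := mul_ne_zero hC hB
  have hD : (xkm - xj) * Wj ^ 2 * Wkm ^ 2 ≠ 0 := by
    rw [← hCB]
    exact hCB0
  have h1 : A * E * (C * B) = (xk - xjp) * (xk - xjm) * (Wjp * Wjm) ^ 2 * Wk ^ 4 := by
    calc A * E * (C * B) = (A * B) * (C * E) := by ring
      _ = (xk - xjp) * (xk - xjm) * (Wjp * Wjm) ^ 2 * Wk ^ 4 := by rw [hAB, hCE]; ring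
  rw [hj, hCB] at h1
  apply mul_right_cancel₀ hD
  linear_combination h1 - Wj ^ 4 * Wk ^ 4 * key -
    (xj - xkp) * (xj - xkm) * Wj ^ 4 * (Wkp * Wkm + (x1 - xk) * Wk ^ 2) * hk

end Fermat.Agent.S13.DPLink
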